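/-
S25 / DICT (helper5688): the field `end_rigid` of `Dictionary`, proved for every base scheme `T`
(in particular `T = Spec R`): an endomorphism of an invertible module on `C ×_k T` which is
the identity along the rigidifying section is the identity.

Assembly of: helper79 (`Scal`, `EndInv`: endomorphisms of an invertible sheaf are global
functions; pullback is linear over global functions) and helper9191 (`PushforwardO`: global
functions on `C ×_k T` are determined along the rigidifying section), both copied verbatim
(namespace renamed) under `DICT/H5688/`.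
-/
import Fermat.Agent.S25.DICT.H5688.H79.EndInv
import Fermat.Agent.S25.DICT.H5688.H9191.PushforwardO
import Fermat.Agent.S25.SchDefs

set_option autoImplicit false

universe u

open CategoryTheory CategoryTheory.Limits AlgebraicGeometry AlgebraicGeometry.RelPicard
  NeronModelInfra

namespace Fermat.Agent.S25.DICT.H5688

variable {k : Type u} [Field k] [IsAlgClosed k] {C : Scheme.{u}}
  (c : C ⟶ Spec (CommRingCat.of k)) [IsProper c] [IsIntegral C]
  (ε : SchemeHomOver (𝟙 (Spec (CommRingCat.of k))) c)

/-- An endomorphism of an invertible module on `C ×_k T` which is the identity along the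
rigidifying section is the identity (any base `T`). -/
theorem end_rigid_of_base {T : Scheme.{u}} (t : T ⟶ Spec (CommRingCat.of k))
    (M : (pullback c t).Modules) (hM : Scheme.Modules.IsInvertible M) (β : M ⟶ M)
    (hβ : (Scheme.Modules.pullback (rigSection c t ε)).map β = 𝟙 _) : β = 𝟙 M := by
  obtain ⟨s, hs, -⟩ := H79.exists_unique_scal_of_isInvertible hM β
  have hM' : Scheme.Modules.IsInvertible ((Scheme.Modules.pullback (rigSection c t ε)).obj M) :=
    hM.pullback _
  obtain ⟨s₀, -, huniq⟩ := H79.exists_unique_scal_of_isInvertible hM'
    (𝟙 ((Scheme.Modules.pullback (rigSection c t ε)).obj M))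
  have h1 : (rigSection c t ε).appTop.hom s = s₀ := by
    apply huniq
    rw [← hβ, hs, H79.pullback_map_scal]
  have h2 : (rigSection c t ε).appTop.hom 1 = s₀ := by
    apply huniq
    rw [map_one, H79.scal_one]
  have hs1 : s = 1 := H9191.eq_of_rigSection_appTop_eq c t ε s 1 (h1.trans h2.symm)
  rw [hs, hs1, H79.scal_one]

/-- The field `end_rigid` of `Dictionary c ε 𝒞`, exact statement. -/
theorem end_rigid {R : Type u} [CommRing R] [Algebra k R]
    (M : (pullback c (tR k R)).Modules) (hM : Scheme.Modules.IsInvertible M) (β : M ⟶ M)
    (hβ : (Scheme.Modules.pullback (rigSection c (tR k R) ε)).map β = 𝟙 _) : β = 𝟙 M :=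
  end_rigid_of_base c ε (tR k R) M hM β hβ

end Fermat.Agent.S25.DICT.H5688
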